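import Mathlib.Computability.Primrec.List
import Mathlib.Data.Nat.Log
import Mathlib.SetTheory.Ordinal.Exponential

/-!
# Hereditary notation read in another base

A number written hereditarily in base `b` is read in base `c`, and with `ω` for the base it becomes
an ordinal. Both maps are strictly monotone and reading in a larger base keeps the ordinal.
-/

set_option autoImplicit false

namespace FA.Goodstein

open Ordinal

/-- The hereditary base `b` notation of `n`, read in base `c`. -/
def rebase (b c n : ℕ) : ℕ :=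
  if n = 0 then 0
  else c ^ rebase b c (Nat.log b n) * (n / b ^ Nat.log b n) +
    rebase b c (n % b ^ Nat.log b n)
termination_by n
decreasing_by
  · exact Nat.log_lt_self b ‹_›
  · rcases Nat.eq_zero_or_pos (b ^ Nat.log b n) with h | h
    · exact absurd (Nat.pow_eq_zero.1 h) (by rintro ⟨rfl, h'⟩; simp at h')
    · exact (Nat.mod_lt n h).trans_le (Nat.pow_log_le_self b ‹_›)

/-- The ordinal of a number, with `ω` for the base. -/
noncomputable def toOrdinal (b n : ℕ) : Ordinal.{0} :=
  if n = 0 then 0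
  else ω ^ toOrdinal b (Nat.log b n) * (n / b ^ Nat.log b n : ℕ) +
    toOrdinal b (n % b ^ Nat.log b n)
termination_by n
decreasing_by
  · exact Nat.log_lt_self b ‹_›
  · rcases Nat.eq_zero_or_pos (b ^ Nat.log b n) with h | h
    · exact absurd (Nat.pow_eq_zero.1 h) (by rintro ⟨rfl, h'⟩; simp at h')
    · exact (Nat.mod_lt n h).trans_le (Nat.pow_log_le_self b ‹_›)

@[simp] theorem rebase_zero (b c : ℕ) : rebase b c 0 = 0 := by
  rw [rebase, if_pos rfl]

@[simp] theorem toOrdinal_zero (b : ℕ) : toOrdinal b 0 = 0 := by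
  rw [toOrdinal, if_pos rfl]

/-- A number by its leading digit. -/
structure IsLeading (b n e d r : ℕ) : Prop where
  eq : n = b ^ e * d + r
  pos : 0 < d
  digit_lt : d < b
  rest_lt : r < b ^ e

theorem isLeading_of_ne_zero {b n : ℕ} (hb : 1 < b) (hn : n ≠ 0) :
    IsLeading b n (Nat.log b n) (n / b ^ Nat.log b n) (n % b ^ Nat.log b n) where
  eq := (Nat.div_add_mod n _).symm
  pos := Nat.div_pos (Nat.pow_log_le_self b hn) (Nat.pow_pos (by omega))
  digit_lt := by
    rw [Nat.div_lt_iff_lt_mul (Nat.pow_pos (by omega)), mul_comm, ← pow_succ]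
    exact Nat.lt_pow_succ_log_self hb n
  rest_lt := Nat.mod_lt _ (Nat.pow_pos (by omega))

theorem IsLeading.facts {b n e d r : ℕ} (h : IsLeading b n e d r) :
    n ≠ 0 ∧ Nat.log b n = e ∧ n / b ^ e = d ∧ n % b ^ e = r := by
  have hb : 0 < b ^ e := Nat.pow_pos (by have := h.digit_lt; omega)
  have h1 : b ^ e ≤ b ^ e * d := Nat.le_mul_of_pos_right _ h.pos
  have h2 : b ^ e * (d + 1) ≤ b ^ e * b := Nat.mul_le_mul_left _ h.digit_lt
  rw [mul_add, mul_one, ← pow_succ] at h2
  have h3 := h.rest_lt
  refine ⟨by rw [h.eq]; omega, ?_, ?_, ?_⟩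
  · exact Nat.log_eq_of_pow_le_of_lt_pow (by rw [h.eq]; omega) (by rw [h.eq]; omega)
  · rw [h.eq, Nat.mul_add_div hb, Nat.div_eq_of_lt h3, add_zero]
  · rw [h.eq, Nat.mul_add_mod, Nat.mod_eq_of_lt h3]

/-- The equation of `rebase`. -/
theorem rebase_eq {b n e d r : ℕ} (c : ℕ) (h : IsLeading b n e d r) :
    rebase b c n = c ^ rebase b c e * d + rebase b c r := by
  obtain ⟨h0, he, hd, hr⟩ := h.facts
  rw [rebase, if_neg h0, he, hd, hr]

theorem toOrdinal_eq {b n e d r : ℕ} (h : IsLeading b n e d r) :
    toOrdinal b n = ω ^ toOrdinal b e * (d : Ordinal) + toOrdinal b r := by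
  obtain ⟨h0, he, hd, hr⟩ := h.facts
  rw [toOrdinal, if_neg h0, he, hd, hr]

variable {b c : ℕ}

/-- Two numbers compare as their leading digits do. -/
theorem lead_cases {m n e d r e' d' r' : ℕ} (hm : IsLeading b m e d r)
    (hn : IsLeading b n e' d' r') (h : m < n) :
    e < e' ∨ e = e' ∧ (d < d' ∨ d = d' ∧ r < r') := by
  obtain ⟨-, he, -⟩ := hm.facts
  obtain ⟨-, he', -⟩ := hn.facts
  rcases (he ▸ he' ▸ Nat.log_mono_right (b := b) h.le : e ≤ e').lt_or_eq with h' | rfl
  · exact .inl h'
  refine .inr ⟨rfl, ?_⟩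
  rcases lt_trichotomy d d' with h' | rfl | h'
  · exact .inl h'
  · have := hm.eq
    have := hn.eq
    exact .inr ⟨rfl, by omega⟩
  · have h1 : b ^ e * (d' + 1) ≤ b ^ e * d := Nat.mul_le_mul_left _ h'
    rw [mul_add, mul_one] at h1
    have := hm.eq
    have := hn.eq
    have := hn.rest_lt
    omega

/-- Reading in a base at least as large keeps the order. -/
theorem rebase_lt_rebase (hb : 1 < b) (hbc : b ≤ c) :
    ∀ n, ∀ m < n, rebase b c m < rebase b c n := by
  intro n
  induction n using Nat.strong_induction_on with | _ n ih => ?_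
  intro m hm
  have hn : IsLeading b n _ _ _ := isLeading_of_ne_zero hb (Nat.ne_of_gt (m.zero_le.trans_lt hm))
  have hc : 1 < c := hb.trans_le hbc
  obtain ⟨hn0, hne, -⟩ := hn.facts
  have hrest : ∀ {k e r : ℕ}, k ≤ n → b ^ e ≤ k → r < b ^ e →
      rebase b c r < c ^ rebase b c e := by
    intro k e r hk hek hr
    rcases Nat.eq_zero_or_pos r with rfl | hr0
    · rw [rebase_zero]
      exact Nat.pow_pos (by omega)
    have hlead := isLeading_of_ne_zero hb hr0.ne'
    have hle : Nat.log b r < e := Nat.log_lt_of_lt_pow hr0.ne' hr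
    have he : e < n := (Nat.lt_pow_self hb).trans_le (hek.trans hk)
    have hrn : r < n := hr.trans_le (hek.trans hk)
    rw [rebase_eq c hlead]
    have h1 := ih e he _ hle
    have h2 : rebase b c (r % b ^ Nat.log b r) < c ^ rebase b c (Nat.log b r) := by
      rcases Nat.eq_zero_or_pos (r % b ^ Nat.log b r) with h | h
      · rw [h, rebase_zero]
        exact Nat.pow_pos (by omega)
      · calc rebase b c (r % b ^ Nat.log b r)
            < rebase b c (b ^ Nat.log b r) :=
              ih _ ((Nat.pow_log_le_self b hr0.ne').trans_lt hrn) _ hlead.rest_lt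
          _ = _ := by
            rw [rebase_eq c (⟨by simp, one_pos, hb, Nat.pow_pos (by omega)⟩ :
              IsLeading b (b ^ Nat.log b r) (Nat.log b r) 1 0)]
            simp
    calc c ^ rebase b c (Nat.log b r) * (r / b ^ Nat.log b r) +
          rebase b c (r % b ^ Nat.log b r)
        < c ^ rebase b c (Nat.log b r) * (r / b ^ Nat.log b r + 1) := by
          rw [mul_add, mul_one]
          omega
      _ ≤ c ^ rebase b c (Nat.log b r) * c :=
          Nat.mul_le_mul_left _ (Nat.succ_le_of_lt (hlead.digit_lt.trans_le hbc))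
      _ ≤ c ^ rebase b c e := by
          rw [← pow_succ]
          exact Nat.pow_le_pow_right (by omega) h1
  have hnpos : c ^ rebase b c (Nat.log b n) ≤
      c ^ rebase b c (Nat.log b n) * (n / b ^ Nat.log b n) :=
    Nat.le_mul_of_pos_right _ hn.pos
  rcases Nat.eq_zero_or_pos m with rfl | hm0
  · rw [rebase_zero, rebase_eq c hn]
    have : 0 < c ^ rebase b c (Nat.log b n) := Nat.pow_pos (by omega)
    omega
  have hlm := isLeading_of_ne_zero hb hm0.ne'
  have hrm := hrest hm.le (Nat.pow_log_le_self b hm0.ne') hlm.rest_lt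
  rw [rebase_eq c hlm, rebase_eq c hn]
  rcases lead_cases hlm hn hm with h | ⟨he, h | ⟨hd, hr⟩⟩
  · have h1 : rebase b c (Nat.log b m) < rebase b c (Nat.log b n) :=
      ih _ (Nat.log_lt_self b hn0) _ h
    have h2 : c ^ rebase b c (Nat.log b m) * (m / b ^ Nat.log b m + 1) ≤
        c ^ rebase b c (Nat.log b n) :=
      (Nat.mul_le_mul_left _ (Nat.succ_le_of_lt (hlm.digit_lt.trans_le hbc))).trans
        (by rw [← pow_succ]; exact Nat.pow_le_pow_right (by omega) h1)
    rw [mul_add, mul_one] at h2
    omega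
  · rw [← he] at h ⊢
    have h2 := Nat.mul_le_mul_left (c ^ rebase b c (Nat.log b m)) h
    rw [Nat.succ_eq_add_one, mul_add, mul_one] at h2
    omega
  · rw [← he] at hd hr ⊢
    rw [hd]
    exact Nat.add_lt_add_left (ih _ ((Nat.mod_lt _ (Nat.pow_pos (by omega))).trans_le
      (he ▸ Nat.pow_log_le_self b hn0)) _ hr) _

theorem rebase_rest_lt (hb : 1 < b) (hbc : b ≤ c) {e r : ℕ} (hr : r < b ^ e) :
    rebase b c r < c ^ rebase b c e := by
  have h := rebase_lt_rebase hb hbc _ _ hr
  rwa [rebase_eq c (⟨by simp, one_pos, hb, Nat.pow_pos (by omega)⟩ :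
    IsLeading b (b ^ e) e 1 0), mul_one, rebase_zero, add_zero] at h

/-- The new notation has the same leading digit. -/
theorem isLeading_rebase (hb : 1 < b) (hbc : b ≤ c) {n e d r : ℕ} (h : IsLeading b n e d r) :
    IsLeading c (rebase b c n) (rebase b c e) d (rebase b c r) :=
  ⟨rebase_eq c h, h.pos, h.digit_lt.trans_le hbc, rebase_rest_lt hb hbc h.rest_lt⟩

/-- **The ordinal does not change when the base grows.** -/
theorem toOrdinal_rebase (hb : 1 < b) (hbc : b ≤ c) :
    ∀ n, toOrdinal c (rebase b c n) = toOrdinal b n := by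
  intro n
  induction n using Nat.strong_induction_on with | _ n ih => ?_
  rcases Nat.eq_zero_or_pos n with rfl | hn
  · simp
  have h := isLeading_of_ne_zero hb hn.ne'
  rw [toOrdinal_eq (isLeading_rebase hb hbc h), toOrdinal_eq h, ih _ (Nat.log_lt_self b hn.ne'),
    ih _ ((Nat.mod_lt _ (Nat.pow_pos (by omega))).trans_le (Nat.pow_log_le_self b hn.ne'))]

/-- The ordinal of a smaller number is smaller. -/
theorem toOrdinal_lt_toOrdinal (hb : 1 < b) : ∀ n, ∀ m < n, toOrdinal b m < toOrdinal b n := by
  intro n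
  induction n using Nat.strong_induction_on with | _ n ih => ?_
  intro m hm
  have hn := isLeading_of_ne_zero hb (Nat.ne_of_gt (m.zero_le.trans_lt hm))
  obtain ⟨hn0, -⟩ := hn.facts
  have hω : ∀ e : Ordinal, (0 : Ordinal) < ω ^ e := fun e => opow_pos e omega0_pos
  have hlead : ω ^ toOrdinal b (Nat.log b n) ≤ toOrdinal b n := by
    rw [toOrdinal_eq hn]
    refine le_trans ?_ le_self_add
    exact le_mul_of_one_le_right' (by exact_mod_cast hn.pos)
  rcases Nat.eq_zero_or_pos m with rfl | hm0
  · rw [toOrdinal_zero]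
    exact (hω _).trans_le hlead
  have hlm := isLeading_of_ne_zero hb hm0.ne'
  have hrm : toOrdinal b (m % b ^ Nat.log b m) < ω ^ toOrdinal b (Nat.log b m) := by
    have hlt : b ^ Nat.log b m < n := (Nat.pow_log_le_self b hm0.ne').trans_lt hm
    have := ih _ hlt _ hlm.rest_lt
    rwa [toOrdinal_eq (⟨by simp, one_pos, hb, Nat.pow_pos (by omega)⟩ :
      IsLeading b (b ^ Nat.log b m) (Nat.log b m) 1 0), Nat.cast_one, mul_one, toOrdinal_zero,
      add_zero] at this
  rw [toOrdinal_eq hlm]
  rcases lead_cases hlm hn hm with h | ⟨he, h | ⟨hd, hr⟩⟩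
  · exact (opow_mul_add_lt_opow (natCast_lt_omega0 _) hrm
      (ih _ (Nat.log_lt_self b hn0) _ h)).trans_le hlead
  · rw [toOrdinal_eq hn, ← he]
    rw [← he] at h
    exact (opow_mul_add_lt_opow_mul hrm (Nat.cast_lt.2 h)).trans_le le_self_add
  · rw [toOrdinal_eq hn, ← he]
    rw [← he] at hd hr
    rw [hd]
    exact add_lt_add_right (ih _ ((Nat.mod_lt _ (Nat.pow_pos (by omega))).trans_le
      (he ▸ Nat.pow_log_le_self b hn0)) _ hr) _

/-- `rebase` is primitive recursive in the number. -/
theorem primrec_rebase (hb : 1 < b) (c : ℕ) : Primrec (rebase b c) := by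
  have hpow : Primrec₂ fun x y : ℕ => x ^ y := Primrec₂.unpaired'.1 Nat.Primrec.pow
  have hlog : Primrec fun n => Nat.findGreatest (fun e => b ^ e ≤ n) n :=
    Primrec.nat_findGreatest Primrec.id
      (Primrec.nat_le.comp₂ (hpow.comp₂ (Primrec₂.const b) Primrec₂.right) Primrec₂.left)
  let e : ℕ → ℕ := fun n => Nat.findGreatest (fun e => b ^ e ≤ n) n
  let g : Unit → List ℕ → Option ℕ := fun _ L =>
    if L.length = 0 then some 0 else
      some (c ^ L.getD (e L.length) 0 * (L.length / b ^ e L.length) +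
        L.getD (L.length % b ^ e L.length) 0)
  have he : Primrec fun p : Unit × List ℕ => e p.2.length :=
    hlog.comp (Primrec.list_length.comp Primrec.snd)
  have hlen : Primrec fun p : Unit × List ℕ => p.2.length := Primrec.list_length.comp Primrec.snd
  have hbe := hpow.comp (Primrec.const b) he
  have hg : Primrec₂ g :=
    (Primrec.ite (Primrec.eq.comp hlen (Primrec.const 0)) (Primrec.const (some 0))
      (Primrec.option_some.comp (Primrec.nat_add.comp
        (Primrec.nat_mul.comp
          (hpow.comp (Primrec.const c) ((Primrec.list_getD 0).comp Primrec.snd he))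
          (Primrec.nat_div.comp hlen hbe))
        ((Primrec.list_getD 0).comp Primrec.snd (Primrec.nat_mod.comp hlen hbe))))).to₂
  refine (Primrec.nat_strong_rec (fun _ : Unit => rebase b c) hg fun _ n => ?_).comp
    (Primrec.const ()) Primrec.id
  simp only [g, List.length_map, List.length_range]
  rcases Nat.eq_zero_or_pos n with rfl | hn
  · simp
  have hlogn : e n = Nat.log b n := by
    refine (Nat.findGreatest_eq_iff).2 ⟨(Nat.log_lt_self b hn.ne').le,
      fun _ => Nat.pow_log_le_self b hn.ne', fun {k} hk _ h => ?_⟩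
    exact absurd (Nat.le_log_of_pow_le hb h) (by omega)
  have hl : Nat.log b n < n := Nat.log_lt_self b hn.ne'
  have hr : n % b ^ Nat.log b n < n :=
    (Nat.mod_lt _ (Nat.pow_pos (by omega))).trans_le (Nat.pow_log_le_self b hn.ne')
  rw [if_neg hn.ne', hlogn, rebase_eq c (isLeading_of_ne_zero hb hn.ne')]
  simp [List.getD_eq_getElem?_getD, hl, hr]

end FA.Goodstein
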